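/-
S15lib / Iface  (helper3, architect)  — Project E

Top-level interface of the proof of S15 (Mazur's step three): the six stub statements
`DictStmt`, `CuspStmt`, `RedHeckeStmt`, `FinStmt`, `TorsInjStmt`, `DescStmt` and (in `S15lib/End.lean`)
the endgame `s15_of_stmts`.  Everything in this file is a definition or a trivial lemma.

Notation: `p` = order of the rational point `Q` = level of the modular curve; `J = JZero p`
= `Pic⁰(FBar p)`, `G = J^{G_ℚ}`; `TJ p q` = the Hecke operators of `S29lib.H` (Galois-equivariant,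
the prelude's `heckeOperatorBar` at `q ≠ p`); `reductionModL A p` = the prelude's reduction map at a
place `A ∣ ℓ`, `ℓ ≠ p` (`S37lib.B3.reductionInputsModL`, S18).

The mathematics (see `plans` in the team messages #h3-E1, #lead-209):
* (DICT)  `(E, ⟨Q⟩)` is a Galois-fixed place `x` of `FBar p`; at a prime `ℓ ≠ p` of multiplicative
          reduction `x` reduces to the cusp `∞` if `Q ∈ E⁰` and to the cusp `0` otherwise.
* (CUSP)  the two cusps, `c = [(0) − (∞)] ≠ 0`, `(p − 1) c = 0`, `T_q c = (1 + q) c`.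
* (REDH)  Hecke operators preserve the kernel of reduction.
* (FIN)   the image of `G` under reduction is finite.
* (TORS)  for odd `ℓ` the reduction is injective on ALL rational torsion (S18 + the `ℓ`-part).
* (DESC)  = (D1″): for every `k` there is a Hecke polynomial `e`, the identity on the Eisenstein
          eigenvectors of `J[r^k]`, with `e(G) ⊆ r^k G + G[r^∞]`   (the Eisenstein descent).
-/
import Mathlib
import Fermat.Statements.S15
import Fermat.Prelude.Def_ModularCurve_ReductionModL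
import Fermat.Agent.S29lib.GH.HeckeGalois
import Fermat.Agent.ProgramR.BarField.Model

set_option autoImplicit false

noncomputable section

namespace Fermat.Agent.S15lib

open AlgebraicCurve ModularCurve WeierstrassCurve WeierstrassCurve.Affine

/-- `ℚ̄` -/
local notation "Qb" => AlgebraicClosure ℚ
/-- `G_ℚ` -/
local notation "GQ" => (AlgebraicClosure ℚ ≃ₐ[ℚ] AlgebraicClosure ℚ)

/-- the function field of `X₀(N)` over `ℚ̄` -/
abbrev FB (N : ℕ) : Type := ↥(modularFunctionFieldBar N)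

/-- the residue field of `A` -/
abbrev kRes (A : ValuationSubring Qb) : Type := IsLocalRing.ResidueField A

/-- the arithmetic action of `σ ∈ G_ℚ` on `FBar N` (coefficientwise on `q`-expansions) -/
abbrev gal (N : ℕ) (σ : GQ) : SemilinearAut Qb (FB N) :=
  arithmeticGalois (modularFunctionFieldFull N) σ

/-- the Hecke operators on `J₀(N)(ℚ̄)` -/
abbrev TJ (N : ℕ) [NeZero N] (q : Nat.Primes) : AddMonoid.End (JZero N) :=
  Fermat.Agent.S29lib.H.TJ N q

/-- the element `j(q)` of `FBar N` -/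
abbrev jB (N : ℕ) [NeZero N] : FB N := Fermat.Agent.ProgramR.BarField.jBar Qb N

/-- the rational points `G = J₀(N)(ℚ̄)^{G_ℚ}` -/
def IsRat {N : ℕ} (z : JZero N) : Prop := ∀ σ : GQ, σ • z = z

/-- `P` is the cusp `∞` of `X₀(p)`: `j` has a simple pole there. -/
def IsCuspInf (p : ℕ) [NeZero p] (P : Place Qb (FB p)) : Prop := P.ord (jB p) = -1

/-- `P` is the cusp `0` of `X₀(p)`: `j` has a pole of order `p` there. -/
def IsCuspZero (p : ℕ) [NeZero p] (P : Place Qb (FB p)) : Prop := P.ord (jB p) = -(p : ℤ)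

open Classical in
/-- the class `[(P) − (Q)] ∈ J₀(N)(ℚ̄)` (junk value `0` if the degrees differ; they never do). -/
def ptClass {N : ℕ} (P Q : Place Qb (FB N)) : JZero N :=
  if h : (Finsupp.single P (1 : ℤ) - Finsupp.single Q 1 : Divisor Qb (FB N)) ∈
      Divisor.degZero (K := Qb) (F := FB N) then Pic0.mk ⟨_, h⟩ else 0

/-- the ring of Hecke polynomials: the subring of `End(J₀(p)(ℚ̄))` generated by the `T_q`, `q ≠ p`. -/
def heckeRing (p : ℕ) [NeZero p] : Subring (AddMonoid.End (JZero p)) :=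
  Subring.closure {T | ∃ q : Nat.Primes, (q : ℕ) ≠ p ∧ T = TJ p q}

/-- `v` is an Eisenstein eigenvector: `T_q v = (1 + q) v` for all primes `q ≠ p`. -/
def IsEis {p : ℕ} [NeZero p] (v : JZero p) : Prop :=
  ∀ q : Nat.Primes, (q : ℕ) ≠ p → TJ p q v = ((1 + (q : ℕ) : ℕ) : ℤ) • v

/-! ### the stubs -/

/-- **(DICT)** the moduli dictionary (with the multiplicativity hypotheses of S15 at `2` and `3`:
they give a prime where `j(E)` is not integral, which makes the place over `(j(E), j(E/C))` unique;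
the zero-component branch is only asked at `ℓ ∉ {2, 3}`: `s15_of_stmts` uses the primes `2, 3` through
the other branch only).
Owner: helper8, `S15lib/Dict/`. -/
def DictStmt : Prop :=
  ∀ {p : ℕ} (hp : p.Prime) (_hp' : p ∉ ({2, 3, 5, 7, 13} : Finset ℕ))
    (W : WeierstrassCurve ℤ) (_hΔ : W.Δ ≠ 0)
    (Q : ((W.map (Int.castRingHom ℚ))⁄(AlgebraicClosure ℚ)).Point)
    (_hQfix : ∀ σ : GQ, σ • Q = Q) (_hQord : addOrderOf Q = p)
    (_h2Δ : (2 : ℤ) ∣ W.Δ) (_h2c₄ : ¬ (2 : ℤ) ∣ W.c₄)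
    (_h3Δ : (3 : ℤ) ∣ W.Δ) (_h3c₄ : ¬ (3 : ℤ) ∣ W.c₄),
    haveI : NeZero p := ⟨hp.ne_zero⟩
    ∃ x : Place Qb (FB p), (∀ σ : GQ, gal p σ • x = x) ∧
      ∀ {ℓ : ℕ} (_hℓ : ℓ.Prime) (_hℓp : ℓ ≠ p) (_hℓΔ : (ℓ : ℤ) ∣ W.Δ) (_hℓc₄ : ¬ (ℓ : ℤ) ∣ W.c₄)
        (A : ValuationSubring Qb) (_hA : A.LiesOverPrime ℓ) (h : ReductionInputsModL A p)
        (c : Place Qb (FB p)),
        ((ℓ ≠ 2 ∧ ℓ ≠ 3 ∧ W.InZeroComponentAt A Q ∧ IsCuspInf p c) ∨
          (¬ W.InZeroComponentAt A Q ∧ IsCuspZero p c)) →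
          placeReductionModL h x = placeReductionModL h c

/-- **(CUSP)** the two cusps and the cuspidal class.  Owner: helper1, `S15lib/Cusp/`. -/
def CuspStmt : Prop :=
  ∀ {p : ℕ} (hp : p.Prime) (_hp' : p ∉ ({2, 3, 5, 7, 13} : Finset ℕ)),
    haveI : NeZero p := ⟨hp.ne_zero⟩
    ∃ cInf cZero : Place Qb (FB p),
      IsCuspInf p cInf ∧ IsCuspZero p cZero ∧
      (∀ σ : GQ, gal p σ • cInf = cInf) ∧ (∀ σ : GQ, gal p σ • cZero = cZero) ∧
      ptClass cZero cInf ≠ 0 ∧ (p - 1) • ptClass cZero cInf = 0 ∧ IsEis (ptClass cZero cInf)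

/-- **(REDH)** Hecke operators preserve the kernel of reduction (`q = ℓ` included: there it is the
Eichler–Shimura relation of `S37lib`).  Owner: helper5/helper2, `S15lib/RedH/`. -/
def RedHeckeStmt : Prop :=
  ∀ {p : ℕ} (hp : p.Prime) {ℓ : ℕ} (_hℓ : ℓ.Prime) (_hℓp : ℓ ≠ p)
    (A : ValuationSubring Qb) (_hA : A.LiesOverPrime ℓ) (q : Nat.Primes) (_hq : (q : ℕ) ≠ p),
    haveI : NeZero p := ⟨hp.ne_zero⟩
    ∀ z : JZero p, reductionModL A p z = 0 → reductionModL A p (TJ p q z) = 0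

/-- **(FIN)** the reduction of the rational points is finite (`J̃(𝔽_ℓ)` is finite).
Owner: helper1, `S15lib/Fin/`. -/
def FinStmt : Prop :=
  ∀ {p : ℕ} (_hp : p.Prime) {ℓ : ℕ} (_hℓ : ℓ.Prime) (_hℓp : ℓ ≠ p)
    (A : ValuationSubring Qb) (_hA : A.LiesOverPrime ℓ),
    Set.Finite ((reductionModL A p) '' {z : JZero p | IsRat z})

/-- **(TORS)** for odd `ℓ ≠ p` the reduction is injective on the rational torsion.
(Prime-to-`ℓ` part: S18.  `ℓ`-part: `e = 1 < ℓ − 1`; via S19lib's Hopf order of analytic functions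
and the valuation argument `ℓψ = −Σ_{j ≥ 2} C(ℓ,j) ψ^{*j}`.)  Owner: helper3, `S15lib/Tors/`. -/
def TorsInjStmt : Prop :=
  ∀ {p : ℕ} (_hp : p.Prime) {ℓ : ℕ} (_hℓ : ℓ.Prime) (_hℓp : ℓ ≠ p) (_hℓ2 : ℓ ≠ 2)
    (A : ValuationSubring Qb) (_hA : A.LiesOverPrime ℓ) (z : JZero p) (_hz : IsRat z)
    (m : ℕ) (_hm : 0 < m) (_hmz : m • z = 0), reductionModL A p z = 0 → z = 0

/-- **(DESC) = (D1″)** the Eisenstein descent.  Owner: helper7 (assembly), `S15lib/Desc/`. -/
def DescStmt : Prop :=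
  ∀ {p : ℕ} (hp : p.Prime) (_hp' : p ∉ ({2, 3, 5, 7, 13} : Finset ℕ))
    {r : ℕ} (_hr : r.Prime) (_hrp : r ≠ p) (k : ℕ),
    haveI : NeZero p := ⟨hp.ne_zero⟩
    ∃ e ∈ heckeRing p,
      (∀ v : JZero p, r ^ k • v = 0 → IsEis v → e v = v) ∧
      ∀ g : JZero p, IsRat g → ∃ h t : JZero p, IsRat h ∧ IsRat t ∧ (∃ m : ℕ, r ^ m • t = 0) ∧
        e g = r ^ k • h + t

end Fermat.Agent.S15lib
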