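/-
S15lib / End  (helper3, architect)  — Project E

**The endgame**: S15 from the six stubs of `S15lib/Iface.lean`.

`c = [(0) − (∞)]`, `n' = ord c > 1`, `r` a prime factor of `n'` (so `r ∣ p − 1`, `r ≠ p`), test prime
`ℓ₀ = 3` (`2` if `r = 3`), `y = [(x) − (0)]`.  With `e` from (DESC) at a large level `k`:
`e y = r^k h + t`.  Step 1: `red₀ y = 0` kills `t` (S18 at `ℓ₀`).  Step 2: if `Q ∈ E⁰` at `A ∣ ℓ` then
`red_A (y + c) = 0`, hence `red_A (m' n'' c) = 0` with `m' n''` prime to `r`; (TORS) gives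
`m' n'' c = 0`, contradicting `r ∣ ord c`.
-/
import Fermat.Agent.S15lib.Iface
import Fermat.Agent.S18
import Fermat.Agent.S37lib.B3.Inst
import Fermat.Agent.Helper5.FrobExists

set_option autoImplicit false
set_option linter.style.haveILetI false
set_option linter.unusedSectionVars false

noncomputable section

namespace Fermat.Agent.S15lib

open AlgebraicCurve ModularCurve WeierstrassCurve WeierstrassCurve.Affine

local notation "Qb" => AlgebraicClosure ℚ
local notation "GQ" => (AlgebraicClosure ℚ ≃ₐ[ℚ] AlgebraicClosure ℚ)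

/-! ### point classes -/

section PtClass

variable {N : ℕ} [NeZero N]

theorem single_sub_mem_degZero (P Q : Place Qb (FB N)) :
    (Finsupp.single P (1 : ℤ) - Finsupp.single Q 1 : Divisor Qb (FB N)) ∈
      Divisor.degZero (K := Qb) (F := FB N) := by
  rw [Divisor.mem_degZero, map_sub, Divisor.degree_single, Divisor.degree_single,
    Fermat.Agent.S37lib.HeckeInst.deg_eq_one N P, Fermat.Agent.S37lib.HeckeInst.deg_eq_one N Q, sub_self]

theorem ptClass_eq (P Q : Place Qb (FB N)) :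
    ptClass P Q = Pic0.mk ⟨_, single_sub_mem_degZero P Q⟩ := by
  rw [ptClass, dif_pos (single_sub_mem_degZero P Q)]

theorem ptClass_add (P Q R : Place Qb (FB N)) : ptClass P Q + ptClass Q R = ptClass P R := by
  rw [ptClass_eq, ptClass_eq, ptClass_eq, ← Pic0.mk_add]
  congr 1
  apply Subtype.ext
  show (Finsupp.single P (1 : ℤ) - Finsupp.single Q 1) + (Finsupp.single Q 1 - Finsupp.single R 1) =
    Finsupp.single P 1 - Finsupp.single R 1
  abel

theorem smul_ptClass (σ : GQ) (P Q : Place Qb (FB N)) :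
    σ • ptClass P Q = ptClass (gal N σ • P) (gal N σ • Q) := by
  rw [ptClass_eq, ptClass_eq, galois_smul_pic0_def, SemilinearAut.pic0_smul_mk]
  congr 1
  apply Subtype.ext
  rw [SemilinearAut.coe_degZeroSMulHom]
  show gal N σ • (Finsupp.single P (1 : ℤ) - Finsupp.single Q 1 : Divisor Qb (FB N)) = _
  rw [smul_sub, SemilinearAut.smul_single, SemilinearAut.smul_single]

theorem isRat_ptClass {P Q : Place Qb (FB N)} (hP : ∀ σ : GQ, gal N σ • P = P)
    (hQ : ∀ σ : GQ, gal N σ • Q = Q) : IsRat (ptClass P Q) := by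
  intro σ
  rw [smul_ptClass, hP, hQ]

theorem reduction_ptClass_eq_zero {A : ValuationSubring Qb} (h : ReductionInputsModL A N)
    {P Q : Place Qb (FB N)} (hPQ : placeReductionModL h P = placeReductionModL h Q) :
    reductionModL A N (ptClass P Q) = 0 := by
  rw [ptClass_eq, reductionModL_mk h]
  have : reductionDegZeroAlong (placeReductionModL h) (isPlaceReductionModL_placeReductionModL h).1
      ⟨_, single_sub_mem_degZero P Q⟩ = 0 := by
    apply Subtype.ext
    rw [coe_reductionDegZeroAlong]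
    show Finsupp.mapDomain (placeReductionModL h)
      (Finsupp.single P (1 : ℤ) - Finsupp.single Q 1) = 0
    rw [Finsupp.mapDomain_sub, Finsupp.mapDomain_single, Finsupp.mapDomain_single, hPQ, sub_self]
  rw [this]
  rfl

end PtClass

/-! ### rational points and Hecke polynomials -/

section Rat

variable {p : ℕ}

theorem IsRat.add {z w : JZero p} (hz : IsRat z) (hw : IsRat w) : IsRat (z + w) := fun σ => by
  rw [smul_add, hz σ, hw σ]

theorem IsRat.neg {z : JZero p} (hz : IsRat z) : IsRat (-z) := fun σ => by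
  rw [smul_neg, hz σ]

theorem IsRat.zero : IsRat (0 : JZero p) := fun σ => by
  rw [galois_smul_pic0_def]
  exact smul_zero (A := JZero p) (arithmeticGalois (modularFunctionFieldFull p) σ)

theorem IsRat.nsmul {z : JZero p} (hz : IsRat z) (n : ℕ) : IsRat (n • z) := by
  induction n with
  | zero => rw [zero_nsmul]; exact IsRat.zero
  | succ n ih => rw [succ_nsmul]; exact ih.add hz

/-- the rational points, as a subgroup -/
def ratSubgroup (p : ℕ) : AddSubgroup (JZero p) where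
  carrier := {z | IsRat z}
  zero_mem' := IsRat.zero
  add_mem' := fun hz hw => IsRat.add hz hw
  neg_mem' := fun hz => IsRat.neg hz

end Rat

section Hecke

variable {p : ℕ} [NeZero p]

theorem heckeRing_isRat {e : AddMonoid.End (JZero p)} (he : e ∈ heckeRing p) :
    ∀ z : JZero p, IsRat z → IsRat (e z) := by
  induction he using Subring.closure_induction with
  | mem T hT =>
    obtain ⟨q, -, rfl⟩ := hT
    intro z hz σ
    have h := Fermat.Agent.S29lib.GH.TJ_galois p q σ z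
    rw [hz σ] at h
    exact h.symm
  | zero => intro z _; exact IsRat.zero
  | one => intro z hz; exact hz
  | add a b _ _ ha hb => intro z hz; exact (ha z hz).add (hb z hz)
  | neg a _ ha => intro z hz; exact (ha z hz).neg
  | mul a b _ _ ha hb => intro z hz; exact ha _ (hb z hz)

theorem heckeRing_red {A : ValuationSubring Qb}
    (hRH : ∀ q : Nat.Primes, (q : ℕ) ≠ p → ∀ z : JZero p,
      reductionModL A p z = 0 → reductionModL A p (TJ p q z) = 0)
    {e : AddMonoid.End (JZero p)} (he : e ∈ heckeRing p) :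
    ∀ z : JZero p, reductionModL A p z = 0 → reductionModL A p (e z) = 0 := by
  induction he using Subring.closure_induction with
  | mem T hT =>
    obtain ⟨q, hq, rfl⟩ := hT
    exact hRH q hq
  | zero => intro z _; exact map_zero _
  | one => intro z hz; exact hz
  | add a b _ _ ha hb =>
    intro z hz
    show reductionModL A p (a z + b z) = 0
    rw [map_add, ha z hz, hb z hz, add_zero]
  | neg a _ ha =>
    intro z hz
    show reductionModL A p (-(a z)) = 0
    rw [map_neg, ha z hz, neg_zero]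
  | mul a b _ _ ha hb => intro z hz; exact ha _ (hb z hz)

theorem IsEis.nsmul {v : JZero p} (hv : IsEis v) (n : ℕ) : IsEis (n • v) := by
  intro q hq
  rw [map_nsmul, hv q hq, smul_comm]

end Hecke

/-! ### finite groups -/

/-- In the finite image of the rational points, `m' • (r^k • f) = 0` for `k ≥ a`,
where `|image| = r^a m'`. -/
theorem exists_card_decomp {p : ℕ} {A : ValuationSubring Qb}
    (hfin : Set.Finite ((reductionModL A p) '' {z : JZero p | IsRat z})) {r : ℕ} (hr : r.Prime) :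
    ∃ a m' : ℕ, ¬ r ∣ m' ∧ ∀ z : JZero p, IsRat z → ∀ k : ℕ, a ≤ k →
      m' • (r ^ k • reductionModL A p z) = 0 := by
  classical
  set F : AddSubgroup (JZeroC (kRes A) p) := (ratSubgroup p).map (reductionModL A p) with hF
  haveI : Finite F := by
    have : (F : Set (JZeroC (kRes A) p)) = (reductionModL A p) '' {z : JZero p | IsRat z} := rfl
    exact Set.finite_coe_iff.mpr (this ▸ hfin)
  have hcard : Nat.card F ≠ 0 := Nat.card_pos.ne'
  obtain ⟨a, m', hm', hM⟩ := Nat.exists_eq_pow_mul_and_not_dvd hcard r hr.ne_one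
  refine ⟨a, m', hm', fun z hz k hk => ?_⟩
  have hmem : reductionModL A p z ∈ F := ⟨z, hz, rfl⟩
  have h0 : Nat.card F • (⟨_, hmem⟩ : F) = 0 := card_nsmul_eq_zero'
  have h1 : Nat.card F • reductionModL A p z = 0 := by
    have := congrArg (fun x : F => (x : JZeroC (kRes A) p)) h0
    rwa [AddSubgroup.coe_nsmul, AddSubgroup.coe_zero] at this
  obtain ⟨d, rfl⟩ := Nat.exists_eq_add_of_le hk
  rw [smul_smul, pow_add, ← mul_assoc, mul_comm m', ← hM, mul_comm, mul_smul, h1, smul_zero]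

/-! ### the endgame -/

set_option maxHeartbeats 1600000 in
set_option synthInstance.maxHeartbeats 400000 in
theorem s15_of_stmts (hDict : DictStmt) (hCusp : CuspStmt) (hRH : RedHeckeStmt) (hFin : FinStmt)
    (hTors : TorsInjStmt) (hDesc : DescStmt)
    {p : ℕ} (hp : p.Prime) (hp' : p ∉ ({2, 3, 5, 7, 13} : Finset ℕ))
    (W : WeierstrassCurve ℤ) (hΔ : W.Δ ≠ 0)
    (Q : ((W.map (Int.castRingHom ℚ))⁄(AlgebraicClosure ℚ)).Point)
    (hQfix : ∀ σ : AlgebraicClosure ℚ ≃ₐ[ℚ] AlgebraicClosure ℚ, σ • Q = Q)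
    (hQord : addOrderOf Q = p)
    (h2Δ : (2 : ℤ) ∣ W.Δ) (h2c₄ : ¬ (2 : ℤ) ∣ W.c₄)
    (h2 : ∀ A : ValuationSubring (AlgebraicClosure ℚ), A.LiesOverPrime 2 → ¬ W.InZeroComponentAt A Q)
    (h3Δ : (3 : ℤ) ∣ W.Δ) (h3c₄ : ¬ (3 : ℤ) ∣ W.c₄)
    (h3 : ∀ A : ValuationSubring (AlgebraicClosure ℚ), A.LiesOverPrime 3 → ¬ W.InZeroComponentAt A Q)
    {ℓ : ℕ} (hℓ : ℓ.Prime) (hℓp : ℓ ≠ p) (hℓΔ : (ℓ : ℤ) ∣ W.Δ) (hℓc₄ : ¬ (ℓ : ℤ) ∣ W.c₄)
    (A : ValuationSubring (AlgebraicClosure ℚ)) (hA : A.LiesOverPrime ℓ) :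
    ¬ W.InZeroComponentAt A Q := by
  classical
  intro hzero
  haveI : NeZero p := ⟨hp.ne_zero⟩
  have hp2 : p ≠ 2 := fun h => hp' (by rw [h]; decide)
  have hp3 : p ≠ 3 := fun h => hp' (by rw [h]; decide)
  -- the trivial cases `ℓ = 2, 3`
  have hℓ2 : ℓ ≠ 2 := fun h => h2 A (h ▸ hA) hzero
  have hℓ3 : ℓ ≠ 3 := fun h => h3 A (h ▸ hA) hzero
  -- the cusps and the point
  obtain ⟨cInf, cZero, hInf, hZero, hfixInf, hfixZero, hc0, hcp, hcE⟩ := hCusp hp hp'
  obtain ⟨x, hxfix, hxred⟩ := hDict hp hp' W hΔ Q hQfix hQord h2Δ h2c₄ h3Δ h3c₄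
  set c : JZero p := ptClass cZero cInf with hc
  set y : JZero p := ptClass x cZero with hy
  have hyc : y + c = ptClass x cInf := ptClass_add x cZero cInf
  have hcrat : IsRat c := isRat_ptClass hfixZero hfixInf
  have hyrat : IsRat y := isRat_ptClass hxfix hfixZero
  -- the order of `c` and the prime `r`
  have hp1 : 0 < p - 1 := Nat.sub_pos_of_lt hp.one_lt
  have hfo : IsOfFinAddOrder c := isOfFinAddOrder_iff_nsmul_eq_zero.mpr ⟨p - 1, hp1, hcp⟩
  have hn'dvd : addOrderOf c ∣ p - 1 := addOrderOf_dvd_of_nsmul_eq_zero hcp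
  have hn'1 : addOrderOf c ≠ 1 := fun h => hc0 (AddMonoid.addOrderOf_eq_one_iff.mp h)
  have hn'0 : addOrderOf c ≠ 0 := fun h => (addOrderOf_pos_iff.mpr hfo).ne' h
  set r : ℕ := (addOrderOf c).minFac with hrdef
  have hr : r.Prime := Nat.minFac_prime hn'1
  have hrn' : r ∣ addOrderOf c := Nat.minFac_dvd _
  have hrp : r ≠ p := by
    intro h
    have h1 : r ≤ p - 1 := Nat.le_of_dvd hp1 (hrn'.trans hn'dvd)
    omega
  obtain ⟨b, n'', hn'', hbn⟩ := Nat.exists_eq_pow_mul_and_not_dvd hn'0 r hr.ne_one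
  -- the test prime
  obtain ⟨ℓ₀, hℓ₀, hℓ₀p, hℓ₀r, hℓ₀Δ, hℓ₀c₄, hℓ₀Q⟩ : ∃ ℓ₀ : ℕ, ℓ₀.Prime ∧ ℓ₀ ≠ p ∧ ℓ₀ ≠ r ∧
      (ℓ₀ : ℤ) ∣ W.Δ ∧ ¬ (ℓ₀ : ℤ) ∣ W.c₄ ∧
      ∀ A₀ : ValuationSubring Qb, A₀.LiesOverPrime ℓ₀ → ¬ W.InZeroComponentAt A₀ Q := by
    by_cases hr3 : r = 3
    · exact ⟨2, Nat.prime_two, fun h => hp2 h.symm, by omega, by exact_mod_cast h2Δ,
        by exact_mod_cast h2c₄, h2⟩
    · exact ⟨3, Nat.prime_three, fun h => hp3 h.symm, fun h => hr3 h.symm, by exact_mod_cast h3Δ,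
        by exact_mod_cast h3c₄, h3⟩
  obtain ⟨A₀, -, hA₀, -⟩ := Fermat.Agent.Helper5.exists_isFrobeniusAt ℓ₀ hℓ₀
  haveI : Fact ℓ₀.Prime := ⟨hℓ₀⟩
  haveI : Fact ℓ.Prime := ⟨hℓ⟩
  have hℓ₀p' : ¬ ℓ₀ ∣ p := fun h => hℓ₀p ((Nat.prime_dvd_prime_iff_eq hℓ₀ hp).mp h)
  have hℓp' : ¬ ℓ ∣ p := fun h => hℓp ((Nat.prime_dvd_prime_iff_eq hℓ hp).mp h)
  have hin₀ : ReductionInputsModL A₀ p := Fermat.Agent.S37lib.B3.reductionInputsModL p A₀ hℓ₀p' hA₀
  have hin : ReductionInputsModL A p := Fermat.Agent.S37lib.B3.reductionInputsModL p A hℓp' hA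
  -- the two reductions
  have hy₀ : reductionModL A₀ p y = 0 :=
    reduction_ptClass_eq_zero hin₀
      (hxred hℓ₀ hℓ₀p hℓ₀Δ hℓ₀c₄ A₀ hA₀ hin₀ cZero (Or.inr ⟨hℓ₀Q A₀ hA₀, hZero⟩))
  have hycA : reductionModL A p (y + c) = 0 := by
    rw [hyc]
    exact reduction_ptClass_eq_zero hin
      (hxred hℓ hℓp hℓΔ hℓc₄ A hA hin cInf (Or.inl ⟨hℓ2, hℓ3, hzero, hInf⟩))
  -- the finite images
  obtain ⟨a₀, m₀, hm₀, hF₀⟩ := exists_card_decomp (hFin hp hℓ₀ hℓ₀p A₀ hA₀) hr
  obtain ⟨a, m', hm', hF⟩ := exists_card_decomp (hFin hp hℓ hℓp A hA) hr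
  -- the descent at level `k`
  obtain ⟨e, he, heE, heG⟩ := hDesc hp hp' hr hrp (a₀ + a + b)
  obtain ⟨h, t, hh, ht, ⟨m, hmt⟩, hey⟩ := heG y hyrat
  -- Step 1: `t = 0`
  have ht0 : t = 0 := by
    have h1 : reductionModL A₀ p (e y) = 0 :=
      heckeRing_red (fun q hq z hz => hRH hp hℓ₀ hℓ₀p A₀ hA₀ q hq z hz) he y hy₀
    rw [hey, map_add, map_nsmul] at h1
    have h2' : m₀ • reductionModL A₀ p t = 0 := by
      have h1' : m₀ • (r ^ (a₀ + a + b) • reductionModL A₀ p h + reductionModL A₀ p t) = 0 := by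
        rw [h1, smul_zero]
      rwa [nsmul_add, hF₀ h hh (a₀ + a + b) (by omega), zero_add] at h1'
    have h3' : m₀ • t = 0 := by
      refine Fermat.Agent.S18.result p hℓ₀p' A₀ hA₀ hin₀ (r ^ m) ?_ (m₀ • t) ?_ ?_
      · intro hd
        exact hℓ₀r ((Nat.prime_dvd_prime_iff_eq hℓ₀ hr).mp (hℓ₀.dvd_of_dvd_pow hd))
      · rw [smul_comm, hmt, smul_zero]
      · rw [map_nsmul, h2']
    have hcop : Nat.Coprime (r ^ m) m₀ :=
      Nat.Coprime.pow_left m ((Nat.Prime.coprime_iff_not_dvd hr).mpr hm₀)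
    have hd1 : addOrderOf t ∣ r ^ m := addOrderOf_dvd_of_nsmul_eq_zero hmt
    have hd2 : addOrderOf t ∣ m₀ := addOrderOf_dvd_of_nsmul_eq_zero h3'
    have : addOrderOf t = 1 := Nat.eq_one_of_dvd_coprimes hcop hd1 hd2
    exact AddMonoid.addOrderOf_eq_one_iff.mp this
  rw [ht0, add_zero] at hey
  -- Step 2
  have h1 : reductionModL A p (e (y + c)) = 0 :=
    heckeRing_red (fun q hq z hz => hRH hp hℓ hℓp A hA q hq z hz) he (y + c) hycA
  rw [map_add, hey, map_add, map_nsmul] at h1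
  have h2' : m' • reductionModL A p (e c) = 0 := by
    have h1' : m' • (r ^ (a₀ + a + b) • reductionModL A p h + reductionModL A p (e c)) = 0 := by
      rw [h1, smul_zero]
    rwa [nsmul_add, hF h hh (a₀ + a + b) (by omega), zero_add] at h1'
  -- `z = (m' n'') c` is an Eisenstein eigenvector of `r`-power order
  set z : JZero p := (m' * n'') • c with hz
  have hzb : r ^ b • z = 0 := by
    rw [hz, smul_smul, mul_comm, mul_assoc, mul_comm n'', ← hbn, mul_smul, addOrderOf_nsmul_eq_zero,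
      smul_zero]
  have hzk : r ^ (a₀ + a + b) • z = 0 := by
    rw [pow_add, mul_smul, hzb, smul_zero]
  have hzE : IsEis z := IsEis.nsmul hcE _
  have hez : e z = z := heE z hzk hzE
  have hzred : reductionModL A p z = 0 := by
    rw [← hez, hz, map_nsmul, map_nsmul, mul_comm, mul_smul, h2', smul_zero]
  have hz0 : z = 0 :=
    hTors hp hℓ hℓp hℓ2 A hA z (hcrat.nsmul _) (r ^ b) (pow_pos hr.pos b) hzb hzred
  -- contradiction
  have hdvd : addOrderOf c ∣ m' * n'' := addOrderOf_dvd_of_nsmul_eq_zero hz0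
  have : r ∣ m' * n'' := hrn'.trans hdvd
  rcases (Nat.Prime.dvd_mul hr).mp this with h | h
  · exact hm' h
  · exact hn'' h

end Fermat.Agent.S15lib
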