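/-
S15lib / Germ  (helper3, architect)  — Project E, shared base

`S19lib.D.geomStmt` with the kernel exposed: at every level `N` prime to `ℓ` and every place
`A ∣ ℓ` there is an analytic germ `G` on `J₀(N)(ℚ̄)` with unramified centres whose subgroup `G.K` IS
the kernel of the prelude's reduction map `reductionModL A N`.
(Main's `geomStmt` hides `K` inside an existential; (TORS), (KUM I), (FLAT), (ORD) need it.)
-/
import Fermat.Agent.S19lib.D.GeomFinal
import Fermat.Agent.S18lib.Asm.Unpack

set_option autoImplicit false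
set_option linter.unusedSectionVars false
set_option linter.style.haveILetI false

noncomputable section

namespace Fermat.Agent.S15lib

open AlgebraicCurve ModularCurve Fermat.Agent.S18lib Fermat.Agent.S19lib Fermat.Agent.S19lib.Geom
open Fermat.Agent.S19lib.D

local notation "Qb" => AlgebraicClosure ℚ
local notation "GQ" => (AlgebraicClosure ℚ ≃ₐ[ℚ] AlgebraicClosure ℚ)

/-- the concrete package of `S19lib.D`, with its reduction datum exposed -/
theorem exists_modInst_datum (N : ℕ) [NeZero N] (ℓ : ℕ) [Fact ℓ.Prime] (hℓN : ¬ ℓ ∣ N)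
    (A : ValuationSubring Qb) (hA : A.LiesOverPrime ℓ) :
    ∃ M : ModInst N ℓ A, M.D = B.modDatum N A hℓN hA := by
  obtain ⟨g, hF, hFk⟩ := B.exists_genus_modDatum N A hℓN hA
  have hpd : HasPrincipalDivisors Qb (FBar N) := hF.hasPrincipalDivisors
  have hpdk : HasPrincipalDivisors (kRes A) (FRes A N) := hFk.hasPrincipalDivisors
  have hsolve : SolveStmt (B.modDatum N A hℓN hA) (B.modSym N A hℓN hA) g ((ℓ : ℕ) : Qb) :=
    solveStmt_of_simpleZeroStmt (B.modLiftCtx N A hℓN hA hF hFk)
      (valuation_ell_lt_one A hA)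
      (fun _ hε hlt => modSym_valuation_le N A hℓN hA hε hlt)
      (simpleZeroStmt (B.modDatum N A hℓN hA) (B.modSym N A hℓN hA) g)
  have htri : ExistsTriStmt (B.modDatum N A hℓN hA) (B.modSym N A hℓN hA) g ((ℓ : ℕ) : Qb) :=
    existsTriStmt_of_solveStmt (B.modLiftCtx N A hℓN hA hF hFk) hsolve
  exact ⟨{ g := g
           D := B.modDatum N A hℓN hA
           hpd := hpd
           hpdk := hpdk
           S := B.modSym N A hℓN hA
           ρ_eq := fun _ => rfl
           I_eq := rfl
           deg_one := hF.deg_eq_one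
           deg_onek := hFk.deg_eq_one
           famS := B.mod_existsFamStmt N A hℓN hA hF hFk
           triS := htri
           kerS := B.mod_kerStmt N A hℓN hA hF hFk
           liftS := B.mod_fixedLiftPlaceStmt N A hℓN hA }, rfl⟩

/-- **the germ of a package, with `K = Kred M.D`** (the proof of `ModInst.exists_analyticGerm`,
keeping track of `K`) -/
theorem exists_analyticGerm_K {N : ℕ} [NeZero N] {ℓ : ℕ} {A : ValuationSubring Qb}
    (M : ModInst N ℓ A) (hcomp : CompStmt A (A0 A) ((ℓ : ℕ) : Qb)) :
    ∃ G : AnalyticGerm A ℓ (JZero N), HasUnramifiedCentres G ∧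
      G.K = (haveI := M.hpd; haveI := M.hpdk; Kred M.D) := by
  have := M.hpd
  have := M.hpdk
  have hcomp' : CompStmt A M.S.R ((ℓ : ℕ) : Qb) := by rw [M.R_eq]; exact hcomp
  obtain ⟨Θ, coord, h1, h2, h3, h4, h5, hadd, hneg, hconj⟩ :=
    exists_germ M.famS M.triS M.kerS hcomp' M.deg_onek
  rw [M.R_eq] at hadd hneg hconj
  refine ⟨{ g := M.g
            K := Kred M.D
            Θ := Θ
            coord := coord
            Θ_mem := fun u hu => h1 u hu
            coord_mem := fun x hx i => h2 x hx i
            coord_Θ := fun u hu => h3 u hu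
            Θ_coord := fun x hx => h4 x hx
            smul_mem := fun σ hσ x hx => by
              have := smul_mem_Kred M.S ⟨σ, hσ⟩ hx
              rwa [M.smul_eq] at this
            Θ_smul := fun σ hσ u hu => by
              obtain ⟨h, hh, rfl⟩ := (M.mem_IA_iff σ).1 hσ
              have := h5 h hh u hu
              rw [M.smul_eq] at this
              rw [← this]
              congr 1
              funext i
              exact (M.hat_apply h (u i)).symm
            add_analytic := fun i => (a0Analytic_iff A ℓ _).2 (hadd i)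
            neg_analytic := fun i => (a0Analytic_iff A ℓ _).2 (hneg i)
            conj_analytic := fun σ hσ i => by
              rw [a0Analytic_iff]
              refine (hconj ⟨σ, hσ⟩ i).congr A fun u _ => ?_
              show M.S.hat ⟨σ, hσ⟩ (coord ((M.S.ρ ⟨σ, hσ⟩)⁻¹ • Θ u) i) = σ (coord (σ⁻¹ • Θ u) i)
              rw [M.hat_apply]
              congr 2
              have := M.smul_eq ⟨σ, hσ⟩⁻¹ (Θ u)
              rw [map_inv] at this
              exact this }, ?_, rfl⟩
  intro x
  obtain ⟨y, hy1, hy2⟩ := exists_fixed_centre M.liftS M.deg_one x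
  refine ⟨y, fun σ hσ => ?_, hy2⟩
  obtain ⟨h, hh, rfl⟩ := (M.mem_IA_iff σ).1 hσ
  rw [← M.smul_eq]
  exact hy1 h hh

/-- the kernel of reduction of the modular datum is the kernel of `reductionModL` -/
theorem mem_Kred_modDatum_iff (N : ℕ) [NeZero N] (ℓ : ℕ) [Fact ℓ.Prime] (hℓN : ¬ ℓ ∣ N)
    (A : ValuationSubring Qb) (hA : A.LiesOverPrime ℓ)
    [HasPrincipalDivisors Qb (FBar N)] [HasPrincipalDivisors (kRes A) (FRes A N)]
    (z : JZero N) :
    z ∈ Kred (B.modDatum N A hℓN hA) ↔ reductionModL A N z = 0 := by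
  obtain ⟨E, rfl⟩ := Pic0.mk_surjective z
  rw [mem_Kred_mk_iff, reductionModL_mk (Fermat.Agent.S37lib.B3.reductionInputsModL N A hℓN hA),
    Asm.pic0_mk_eq_zero_iff, coe_reductionDegZeroAlong]
  rfl

/-- **the germ at a place of good reduction, with `K = ker (reductionModL A N)`** -/
theorem exists_germ_ker (N : ℕ) [NeZero N] (ℓ : ℕ) [Fact ℓ.Prime] (hℓN : ¬ ℓ ∣ N)
    (A : ValuationSubring Qb) (hA : A.LiesOverPrime ℓ) :
    ∃ G : AnalyticGerm A ℓ (JZero N), HasUnramifiedCentres G ∧
      ∀ z : JZero N, z ∈ G.K ↔ reductionModL A N z = 0 := by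
  obtain ⟨M, hM⟩ := exists_modInst_datum N ℓ hℓN A hA
  obtain ⟨G, hG, hK⟩ := exists_analyticGerm_K M (compStmt_A0 A hA)
  refine ⟨G, hG, fun z => ?_⟩
  have := M.hpd
  have := M.hpdk
  rw [hK, hM]
  exact mem_Kred_modDatum_iff N ℓ hℓN A hA z

end Fermat.Agent.S15lib

end
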