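/-
S15lib / Final  (helper7)  — Project E: the final assembly of S15.

Every block of `S15lib/Iface.lean` which is already a theorem is plugged into helper3's endgame
`s15_of_stmts`.  What remains (2026-12-02) are the two inputs of `s15_of_open`:

* `Desc.LocNDivStmt`   (LOCN: helper4's annulus count + helper1's assembly),
* `Dict.VeluLatStmt`   ((EA)(V): helper9's coset sums + helper3's discriminant identity).

Closed blocks used here:
(CUSP) helper1 `Cusp.cuspStmt`; (REDH) helper6 `RedH.redHeckeStmt`; (FIN) helper1 `Fin.finStmt`;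
(TORS) helper3 `Tors.torsInjStmt`; (DESC) `Desc.descStmt_of_locN` (Desc/Final);
(DICT) helper6's glue `EL2.dictStmt'_of`, helper8's `Dict.modStmt`, helper5's transfer
`Dict.veluQb_of_veluC`, helper2's `Dict.veluCStmt_of`, (EA)(U) `Dict.Unif.unifStmt`.
-/
import Fermat.Agent.S15lib.End
import Fermat.Agent.S15lib.Cusp.Main
import Fermat.Agent.S15lib.RedH.Stmt
import Fermat.Agent.S15lib.Fin.Main
import Fermat.Agent.S15lib.Tors.Main
import Fermat.Agent.S15lib.Desc.Final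
import Fermat.Agent.S15lib.Dict.EL2.Glue
import Fermat.Agent.S15lib.Dict.ModRed
import Fermat.Agent.S15lib.Dict.Transfer
import Fermat.Agent.S15lib.Dict.VeluGlue
import Fermat.Agent.S15lib.Dict.Unif.Main

set_option autoImplicit false
set_option linter.style.haveILetI false

namespace Fermat.Agent.S15lib

open WeierstrassCurve WeierstrassCurve.Affine

local notation "Qb" => AlgebraicClosure ℚ
local notation "GQ" => (AlgebraicClosure ℚ ≃ₐ[ℚ] AlgebraicClosure ℚ)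

/-- (DICT) of `S15lib/Iface.lean` from the form proved in `S15lib/Dict/` -/
theorem dictStmt_of (h : Dict.DictStmt') : DictStmt :=
  fun hp hp' W hΔ Q hQfix hQord _ _ _ _ => h hp hp' W hΔ Q hQfix hQord

/-- (EA) over `ℂ` from Vélu on lattices -/
theorem veluCStmt_of_lat (hVL : Dict.VeluLatStmt) : Dict.VeluCStmt :=
  Dict.veluCStmt_of Dict.Unif.unifStmt hVL

/-- (DICT) from Vélu on lattices -/
theorem dictStmt_of_lat (hVL : Dict.VeluLatStmt) : DictStmt :=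
  dictStmt_of (Dict.EL2.dictStmt'_of (Dict.veluQb_of_veluC (veluCStmt_of_lat hVL)) Dict.modStmt
    Cusp.cuspStmt)

/-- **S15** from the two blocks which are still open. -/
theorem s15_of_open (hLocN : Desc.LocNDivStmt) (hVL : Dict.VeluLatStmt)
    {p : ℕ} (hp : p.Prime) (hp' : p ∉ ({2, 3, 5, 7, 13} : Finset ℕ))
    (W : WeierstrassCurve ℤ) (hΔ : W.Δ ≠ 0)
    (Q : ((W.map (Int.castRingHom ℚ))⁄(AlgebraicClosure ℚ)).Point)
    (hQfix : ∀ σ : AlgebraicClosure ℚ ≃ₐ[ℚ] AlgebraicClosure ℚ, σ • Q = Q)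
    (hQord : addOrderOf Q = p)
    (h2Δ : (2 : ℤ) ∣ W.Δ) (h2c₄ : ¬ (2 : ℤ) ∣ W.c₄)
    (h2 : ∀ A : ValuationSubring (AlgebraicClosure ℚ), A.LiesOverPrime 2 → ¬ W.InZeroComponentAt A Q)
    (h3Δ : (3 : ℤ) ∣ W.Δ) (h3c₄ : ¬ (3 : ℤ) ∣ W.c₄)
    (h3 : ∀ A : ValuationSubring (AlgebraicClosure ℚ), A.LiesOverPrime 3 → ¬ W.InZeroComponentAt A Q)
    {ℓ : ℕ} (hℓ : ℓ.Prime) (hℓp : ℓ ≠ p) (hℓΔ : (ℓ : ℤ) ∣ W.Δ) (hℓc₄ : ¬ (ℓ : ℤ) ∣ W.c₄)
    (A : ValuationSubring (AlgebraicClosure ℚ)) (hA : A.LiesOverPrime ℓ) :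
    ¬ W.InZeroComponentAt A Q :=
  s15_of_stmts (dictStmt_of_lat hVL) Cusp.cuspStmt RedH.redHeckeStmt Fin.finStmt Tors.torsInjStmt
    (Desc.descStmt_of_locN hLocN) hp hp' W hΔ Q hQfix hQord h2Δ h2c₄ h2 h3Δ h3c₄ h3 hℓ hℓp hℓΔ
    hℓc₄ A hA

end Fermat.Agent.S15lib
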