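/-
S15lib / Closed  (helper7)  — Project E: every block is a theorem.

* (LOCN)  helper4 + helper1 + helper2: `LocN.locNDivStmt_of_annCount`, `LocN.annCountStmt`;
* (EA)(V) helper9 + helper3: `Dict.EA.veluLatStmt`;
* the rest: see `S15lib/Final.lean`.
-/
import Fermat.Agent.S15lib.Final
import Fermat.Agent.S15lib.LocN.DivOfAnn
import Fermat.Agent.S15lib.LocN.Ann.Card
import Fermat.Agent.S15lib.Dict.EA.Main

set_option autoImplicit false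
set_option linter.style.haveILetI false

namespace Fermat.Agent.S15lib

open WeierstrassCurve WeierstrassCurve.Affine

/-- (LOCN) -/
theorem locNDivStmt_closed : Desc.LocNDivStmt :=
  LocN.locNDivStmt_of_annCount Desc.divStmt LocN.annCountStmt

/-- **(DESC) = (D1″)**, the Eisenstein descent -/
theorem descStmt_closed : DescStmt :=
  Desc.descStmt_of_locN locNDivStmt_closed

/-- **(DICT)**, the moduli dictionary -/
theorem dictStmt_closed : DictStmt :=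
  dictStmt_of_lat Dict.EA.veluLatStmt

/-- **S15** (Mazur's step three). -/
theorem s15
    {p : ℕ} (hp : p.Prime) (hp' : p ∉ ({2, 3, 5, 7, 13} : Finset ℕ))
    (W : WeierstrassCurve ℤ) (hΔ : W.Δ ≠ 0)
    (Q : ((W.map (Int.castRingHom ℚ))⁄(AlgebraicClosure ℚ)).Point)
    (hQfix : ∀ σ : AlgebraicClosure ℚ ≃ₐ[ℚ] AlgebraicClosure ℚ, σ • Q = Q)
    (hQord : addOrderOf Q = p)
    (h2Δ : (2 : ℤ) ∣ W.Δ) (h2c₄ : ¬ (2 : ℤ) ∣ W.c₄)
    (h2 : ∀ A : ValuationSubring (AlgebraicClosure ℚ), A.LiesOverPrime 2 → ¬ W.InZeroComponentAt A Q)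
    (h3Δ : (3 : ℤ) ∣ W.Δ) (h3c₄ : ¬ (3 : ℤ) ∣ W.c₄)
    (h3 : ∀ A : ValuationSubring (AlgebraicClosure ℚ), A.LiesOverPrime 3 → ¬ W.InZeroComponentAt A Q)
    {ℓ : ℕ} (hℓ : ℓ.Prime) (hℓp : ℓ ≠ p) (hℓΔ : (ℓ : ℤ) ∣ W.Δ) (hℓc₄ : ¬ (ℓ : ℤ) ∣ W.c₄)
    (A : ValuationSubring (AlgebraicClosure ℚ)) (hA : A.LiesOverPrime ℓ) :
    ¬ W.InZeroComponentAt A Q :=
  s15_of_open locNDivStmt_closed Dict.EA.veluLatStmt hp hp' W hΔ Q hQfix hQord h2Δ h2c₄ h2 h3Δ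
    h3c₄ h3 hℓ hℓp hℓΔ hℓc₄ A hA

end Fermat.Agent.S15lib
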